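import Fermat.Agent.RIB.Lift.Main
import Fermat.Agent.HK.Good

/-!
# RIB / Lift / Rel : [LIFT] in the language of `HK.Rel` (owner: helper71)

* `dvd_ord_of_valuation_eq_one` : `W_Q.valuation (h ^ m * w) = 1 ⟹ m ∣ ord_Q w` (output of `RIB.resHor` ⟹ input of `exists_torsion_rel`).
* `exists_torsion_rel` : a non zero function `w` of the special fibre of `X₀(M)` (`M` rigid, `ℓ ∤ M n`) with `n ∣ div w` is related
  (`HK.Rel n w y`) to an `n`-TORSION point `y` of `J₀(M)`.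
* `Rel.eq_of_torsion` : such a `y` is unique.
-/

set_option autoImplicit false
set_option synthInstance.maxHeartbeats 400000

noncomputable section

open AlgebraicCurve ModularCurve

namespace Fermat.Agent.RIB

open Fermat.Agent.RED hiding GQ Kb
open Fermat.Agent.FLAT (Qb GQ)

/-- from "unit times an `m`-th power at `Q`" to "`m ∣ ord_Q`". -/
theorem dvd_ord_of_valuation_eq_one {K F : Type*} [Field K] [Field F] [Algebra K F] (Q : Place K F)
    {m : ℕ} {h w : F} (hh : h ≠ 0) (hw : w ≠ 0)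
    (hv : Q.toValuationSubring.valuation (h ^ m * w) = 1) : (m : ℤ) ∣ Q.ord w := by
  have h0 : h ^ m * w ≠ 0 := mul_ne_zero (pow_ne_zero _ hh) hw
  have h1 : 0 ≤ Q.ord (h ^ m * w) :=
    (S24.Place.mem_iff_ord_nonneg Q h0).mp ((Q.toValuationSubring.valuation_le_one_iff _).mp hv.le)
  have h2 : 0 ≤ Q.ord (h ^ m * w)⁻¹ :=
    (S24.Place.mem_iff_ord_nonneg Q (inv_ne_zero h0)).mp
      ((Q.toValuationSubring.valuation_le_one_iff _).mp (by rw [map_inv₀, hv, inv_one]))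
  rw [Q.ord_inv] at h2
  have h3 : Q.ord (h ^ m * w) = 0 := le_antisymm (by omega) h1
  rw [Q.ord_mul (pow_ne_zero _ hh) hw, S24.Place.ord_pow] at h3
  exact ⟨-Q.ord h, by linarith⟩

variable {ℓ : ℕ} [Fact ℓ.Prime] {M : ℕ} [NeZero M] {A : ValuationSubring Qb}
  (hA : A.LiesOverPrime ℓ) (hℓM : ¬ ℓ ∣ M) (h49 : 4 ∣ M ∨ 9 ∣ M) (h : ReductionInputsModL A M)

include hA hℓM h49 h in
/-- **[LIFT]** for `HK.Rel`. -/
theorem exists_torsion_rel {n : ℕ} (hn : ¬ ℓ ∣ n)
    {w : modularFunctionFieldFullC (IsLocalRing.ResidueField A) M} (hw : w ≠ 0)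
    (hdiv : ∀ Q : Place (IsLocalRing.ResidueField A)
      (modularFunctionFieldFullC (IsLocalRing.ResidueField A) M), (n : ℤ) ∣ Q.ord w) :
    ∃ y : JZero M, n • y = 0 ∧ HK.Rel n w y := by
  have hn0 : n ≠ 0 := by rintro rfl; exact hn (dvd_zero _)
  obtain ⟨y₀, -, E, hE, hy₀⟩ := HK.exists_rel hA hℓM h49 h hn0 hw hdiv
  have hc : n • (Pic0.mk E : JZeroC (IsLocalRing.ResidueField A) M) = 0 := by
    change Pic0.mk (n • E) = 0
    rw [Pic0.mk, QuotientAddGroup.eq_zero_iff, AddSubgroup.mem_addSubgroupOf]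
    refine ⟨w, hw, fun Q => ?_⟩
    rw [AddSubgroup.coe_nsmul, Finsupp.smul_apply, nsmul_eq_mul, hE]
  obtain ⟨y, hy, hyc⟩ := lift_torsion M hℓM A hA h49 h n hn _ hc
  exact ⟨y, hy, hw, E, hE, hyc⟩

include hA hℓM h in
/-- uniqueness of the torsion point related to `w`. -/
theorem eq_of_rel_of_torsion {n : ℕ} (hn : ¬ ℓ ∣ n)
    {w : modularFunctionFieldFullC (IsLocalRing.ResidueField A) M} {y y' : JZero M}
    (hy : n • y = 0) (hy' : n • y' = 0) (hR : HK.Rel n w y) (hR' : HK.Rel n w y') : y = y' := by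
  have hn0 : n ≠ 0 := by rintro rfl; exact hn (dvd_zero _)
  have hred := HK.Rel.red_eq hn0 hR hR'
  refine sub_eq_zero.1 (S18.result M hℓM A hA h n hn (y - y') ?_ ?_)
  · rw [nsmul_sub, hy, hy', sub_zero]
  · rw [map_sub, hred, sub_self]

end Fermat.Agent.RIB
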