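import Fermat.Agent.MAZ.Geo.HopfB2
import Fermat.Agent.MAZ.Geo.HeqG
import Fermat.Agent.FFG.Chart

/-!
# RIB / Lift / Fixed : step (4) of [LIFT] (owner: helper71)

Every class of `Pic⁰` of the special fibre of `X₀(M)` (`ℓ ∤ M`, rigid level) is the reduction of a point of `J₀(M)` which is FIXED
by the inertia group of `A`.

Proof.  Outside a finite set `B` every place `Q` of the special fibre has a local parameter `T` fixed by inertia
(`MAZ.exists_good_inertia'`); `T` has exactly one zero `P₀` in the residue disc of `Q`, a simple one (`exists_unique_zero`), so `P₀`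
is fixed by inertia (which preserves the residue discs).  Move a divisor of the class away from `B` (`FFG.exists_equiv_avoid`) and
lift it point by point.
-/

set_option autoImplicit false
set_option synthInstance.maxHeartbeats 400000

noncomputable section

open AlgebraicCurve ModularCurve IntermediateField

namespace Fermat.Agent.RIB

open Fermat.Agent.RED Fermat.Agent.S24 Fermat.Agent.S28 Fermat.Agent.RED.Gauss Fermat.Agent.FLAT

section Abstract

variable {L F k Fb : Type*} [Field L] [Field F] [Algebra L F] [Field k] [Field Fb] [Algebra k Fb]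
  {O : ValuationSubring F} {red : O →+* Fb} {r : Place L F → Place k Fb}

/-- a local parameter has exactly one zero in its residue disc, and it is simple. -/
theorem exists_unique_zero (h : IsReduction O red r) {Q : Place k Fb} {T : F}
    (hT : IsLocalParam O red r Q T) :
    ∃ P0, r P0 = Q ∧ P0.ord T = 1 ∧ ∀ P, r P = Q → P ≠ P0 → P.ord T = 0 := by
  have hrT0 : rd O red T ≠ 0 := ne_zero_of_ord_ne_zero Q (by rw [hT.ord]; norm_num)
  have hvT : O.valuation T = 1 := h.val_eq_one_of_rd_ne_zero hrT0
  obtain ⟨D, hD⟩ := h.exists_div _ (h.ne_zero_of_val_eq_one hvT)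
  have hsum : D.mapDomain r Q = 1 := by
    rw [← h.ord_rd hvT D hD Q, hT.ord]
  obtain ⟨P0, hP0, hP01, hP0u⟩ := exists_unique_of_mapDomain_apply_eq_one r D Q
    (fun P' hP' => by rw [hD]; exact hT.reg P' hP') hsum
  exact ⟨P0, hP0, by rw [← hD]; exact hP01, fun P hP hne => by rw [← hD]; exact hP0u P hP hne⟩

/-- the zero of a local parameter fixed by a set of semilinear automorphisms preserving the residue discs is fixed. -/
theorem exists_fixed_place (h : IsReduction O red r) {Q : Place k Fb} {T : F}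
    (hT : IsLocalParam O red r Q T) (S : Set (SemilinearAut L F))
    (hr : ∀ g ∈ S, ∀ P, r (g • P) = r P) (hS : ∀ g ∈ S, g • T = T) :
    ∃ P0, r P0 = Q ∧ ∀ g ∈ S, g • P0 = P0 := by
  obtain ⟨P0, hP0, h1, hu⟩ := exists_unique_zero h hT
  refine ⟨P0, hP0, fun g hg => ?_⟩
  by_contra hne
  have h2 := hu (g • P0) (by rw [hr g hg, hP0]) hne
  have h3 := SemilinearAut.ord_smul g P0 T
  rw [hS g hg, h2, h1] at h3
  norm_num at h3

end Abstract

section Level

variable {ℓ : ℕ} [Fact ℓ.Prime] (M : ℕ) [NeZero M] (A : ValuationSubring Qb)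
  (hA : A.LiesOverPrime ℓ) (hℓM : ¬ ℓ ∣ M)

include hA hℓM in
set_option maxHeartbeats 1600000 in
/-- **[LIFT] (4)** : divisor form.  Every degree zero divisor of the special fibre is linearly equivalent to the reduction of a degree
zero divisor all of whose points are fixed by inertia. -/
theorem exists_inertia_fixed_divisor (h49 : 4 ∣ M ∨ 9 ∣ M) (h : ReductionInputsModL A M)
    (E : Divisor (IsLocalRing.ResidueField A)
      (modularFunctionFieldFullC (IsLocalRing.ResidueField A) M)) :
    ∃ D : Divisor Qb (modularFunctionFieldBar M),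
      Divisor.IsPrincipal (D.mapDomain (placeReductionModL h) - E) ∧
      Divisor.degree D = Divisor.degree E ∧
      ∀ σ ∈ A.inertiaSubgroupIn ℚ, galM M σ • D = D := by
  classical
  have := charP_residueField A hA
  have := isAlgClosed_residueField A
  obtain ⟨r, G, hr, B, hB, hpar⟩ := MAZ.exists_good_inertia' M A hA hℓM h49
  have hrr : placeReductionModL h = r :=
    MAZ.placeReduction_eq_of_good M A hA hℓM (isPlaceReductionModL_placeReductionModL h)
      h.choose_spec.2 G
  rw [hrr]
  have hxb := Cusp.isSepParam_jb M (IsLocalRing.ResidueField A) ℓ hℓM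
  obtain ⟨E', hE', hE'B⟩ := FFG.exists_equiv_avoid hxb E B hB
  have hred := G.isReduction
  have hex : ∀ Q, ∃ P0, r P0 = Q ∧ (Q ∉ B → ∀ σ ∈ A.inertiaSubgroupIn ℚ, galM M σ • P0 = P0) := by
    intro Q
    by_cases hQ : Q ∈ B
    · obtain ⟨P0, hP0⟩ := G.surj Q
      exact ⟨P0, hP0, fun h => absurd hQ h⟩
    · obtain ⟨T, hT, hfix⟩ := hpar Q hQ
      obtain ⟨P0, hP0, hP0f⟩ := exists_fixed_place hred hT
        (galM M '' (A.inertiaSubgroupIn ℚ : Set _))
        (by rintro _ ⟨σ, hσ, rfl⟩ P; exact hr σ hσ P)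
        (by rintro _ ⟨σ, hσ, rfl⟩; exact hfix σ hσ)
      exact ⟨P0, hP0, fun _ σ hσ => hP0f _ ⟨σ, hσ, rfl⟩⟩
  choose s hs hsfix using hex
  have hrs : (E'.mapDomain s).mapDomain r = E' := by
    rw [← Finsupp.mapDomain_comp]
    have : r ∘ s = id := funext hs
    rw [this, Finsupp.mapDomain_id]
  refine ⟨E'.mapDomain s, by rw [hrs]; exact hE', ?_, fun σ hσ => ?_⟩
  · rw [← FFG.degree_mapDomain G, hrs]
    have h0 : Divisor.degree (E' - E) = 0 := hxb.degree_eq_zero_of_isPrincipal hE'
    rw [map_sub, sub_eq_zero] at h0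
    exact h0
  · rw [SemilinearAut.divisor_smul_def, ← Finsupp.mapDomain_comp]
    refine Finsupp.mapDomain_congr fun Q hQ => ?_
    have hQB : Q ∉ B := fun hQB => (Finsupp.mem_support_iff.mp hQ) (hE'B Q hQB)
    exact hsfix Q hQB σ hσ

include hA hℓM in
set_option maxHeartbeats 1600000 in
/-- **[LIFT] (4)** : every class of the special fibre is the reduction of a point of `J₀(M)` fixed by inertia. -/
theorem exists_inertia_fixed_lift (h49 : 4 ∣ M ∨ 9 ∣ M) (h : ReductionInputsModL A M)
    (c : JZeroC (IsLocalRing.ResidueField A) M) :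
    ∃ x : JZero M, reductionModL A M x = c ∧ ∀ σ ∈ A.inertiaSubgroupIn ℚ, σ • x = x := by
  obtain ⟨E, rfl⟩ := Pic0.mk_surjective c
  obtain ⟨D, hDE, hdeg, hfix⟩ := exists_inertia_fixed_divisor M A hA hℓM h49 h E
  have hD0 : D ∈ Divisor.degZero (K := Qb) (F := modularFunctionFieldBar M) := by
    rw [Divisor.mem_degZero, hdeg]
    exact Divisor.mem_degZero.mp E.2
  refine ⟨Pic0.mk ⟨D, hD0⟩, ?_, fun σ hσ => ?_⟩
  · rw [reductionModL_mk h, ← sub_eq_zero]
    change Pic0.mk (_ - E) = 0
    rw [Pic0.mk, QuotientAddGroup.eq_zero_iff, AddSubgroup.mem_addSubgroupOf]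
    exact hDE
  · rw [galois_smul_pic0_def, SemilinearAut.pic0_smul_mk]
    exact congrArg Pic0.mk (Subtype.ext (hfix σ hσ))

end Level

end Fermat.Agent.RIB
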