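import Fermat.Agent.RIB.Lift.Abs
import Fermat.Agent.RIB.Lift.Fixed
import Fermat.Agent.S40.Kill.Main
import Fermat.Agent.S18

/-!
# RIB / Lift / Tors : assembly of [LIFT] at a rigid level (owner: helper71)

`lift_torsion_rigid` : for `ℓ ∤ M m`, `M` rigid, every `m`-torsion class of `Pic⁰` of the special fibre of `X₀(M)` at `ℓ` is the
reduction of an `m`-torsion point of `J₀(M)`.

Ingredients: `lift_abs` (helper54, counting), `exists_inertia_fixed_lift` (inertia fixed lifts), `S40.Kill` (helper81: finiteness of the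
classes fixed by a power of Frobenius, every point is fixed by a power of a Frobenius lift), S18 (injectivity on torsion), S19
(divisibility), S27 (finiteness of the torsion).
-/

set_option autoImplicit false
set_option synthInstance.maxHeartbeats 400000

noncomputable section

open AlgebraicCurve ModularCurve IntermediateField

namespace Fermat.Agent.RIB

open Fermat.Agent.RED hiding GQ Kb
open Fermat.Agent.S24 Fermat.Agent.S28 Fermat.Agent.RED.Gauss Fermat.Agent.FLAT

/-- finiteness of the `m`-torsion of `J₀(N)`. -/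
theorem finite_nsmul_eq_zero (N : ℕ) [NeZero N] (m : ℕ) (hm : 0 < m) :
    {t : JZero N | m • t = 0}.Finite := by
  have h1 : Nat.card (Pic0.torsion Qb (modularFunctionFieldBar N) m) =
      m ^ (2 * genusFF Qb (modularFunctionFieldBar N)) :=
    S27.card_torsion_small_proof Qb (modularFunctionFieldBar N)
      ⟨(IsAlgClosed.lift (R := ℚ) (S := Qb) (M := ℂ)).toRingHom⟩ m hm
  have hfin : Finite (Pic0.torsion Qb (modularFunctionFieldBar N) m) := by
    apply Nat.finite_of_card_ne_zero
    rw [h1]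
    positivity
  have : {t : JZero N | m • t = 0} =
      (Pic0.torsion Qb (modularFunctionFieldBar N) m : Set (JZero N)) := by
    ext x
    simp only [Set.mem_ofPred_eq, SetLike.mem_coe, Pic0.mem_torsion]
    norm_cast
  rw [this]
  exact Set.toFinite _

variable {ℓ : ℕ} [Fact ℓ.Prime] (M : ℕ) [NeZero M] (A : ValuationSubring Qb)
  (hA : A.LiesOverPrime ℓ) (hℓM : ¬ ℓ ∣ M)

include hA hℓM in
set_option maxHeartbeats 1600000 in
/-- inertia acts trivially after reduction. -/
theorem reductionModL_inertia_smul (h49 : 4 ∣ M ∨ 9 ∣ M) (h : ReductionInputsModL A M)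
    (σ : GQ) (hσ : σ ∈ A.inertiaSubgroupIn ℚ) (x : JZero M) :
    reductionModL A M (σ • x) = reductionModL A M x := by
  obtain ⟨r, G, hr, -⟩ := MAZ.exists_good_inertia' M A hA hℓM h49
  have hrr : placeReductionModL h = r :=
    MAZ.placeReduction_eq_of_good M A hA hℓM (isPlaceReductionModL_placeReductionModL h)
      h.choose_spec.2 G
  obtain ⟨D, rfl⟩ := Pic0.mk_surjective x
  rw [galois_smul_pic0_def, SemilinearAut.pic0_smul_mk, reductionModL_mk h, reductionModL_mk h]
  refine congrArg Pic0.mk (Subtype.ext ?_)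
  rw [coe_reductionDegZeroAlong, coe_reductionDegZeroAlong, SemilinearAut.coe_degZeroSMulHom,
    SemilinearAut.divisor_smul_def, ← Finsupp.mapDomain_comp]
  refine Finsupp.mapDomain_congr fun P _ => ?_
  rw [hrr]
  exact hr σ hσ P

include hA hℓM in
set_option maxHeartbeats 1600000 in
/-- **[LIFT]** at a rigid level. -/
theorem lift_torsion_rigid (h49 : 4 ∣ M ∨ 9 ∣ M) (h : ReductionInputsModL A M) (m : ℕ)
    (hm : ¬ ℓ ∣ m) (c : JZeroC (IsLocalRing.ResidueField A) M) (hc : m • c = 0) :
    ∃ x : JZero M, m • x = 0 ∧ reductionModL A M x = c := by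
  have hp : ℓ.Prime := Fact.out
  have hm0 : 0 < m := Nat.pos_of_ne_zero (by rintro rfl; exact hm (dvd_zero _))
  have : IsAlgClosed (IsLocalRing.ResidueField A) := GalEq.isAlgClosed_residueField A
  have : CharP (IsLocalRing.ResidueField A) ℓ := GalEq.charP_residueField hp hA
  obtain ⟨x₀, hx₀, hfix⟩ := exists_inertia_fixed_lift M A hA hℓM h49 h c
  obtain ⟨σ₀, hσ₀⟩ := Fermat.Agent.S54.exists_isFrobeniusAt_of_liesOverPrime hp A hA
  obtain ⟨n, hn, hy⟩ := S40.Kill.exists_pow_fixing M σ₀ x₀
  have hσ : σ₀ ^ n ∈ A.decompositionSubgroup ℚ :=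
    (A.decompositionSubgroup ℚ).pow_mem hσ₀.mem_decompositionSubgroup n
  set τ := resAut A (σ₀ ^ n) hσ with hτ
  set g := coeffAut (IsLocalRing.ResidueField A) M τ with hg
  have hfin : {c : JZeroC (IsLocalRing.ResidueField A) M | g • c = c}.Finite :=
    S40.Kill.finite_fixed_coeffAut M _ hℓM τ (Nat.one_lt_pow hn.ne' hp.one_lt)
      (fun a => S40.Kill.resAut_pow hσ₀ n hσ a)
  obtain ⟨x, hx, hxc⟩ := lift_abs (reductionModL A M) m
    (fun z => S40.Kill.exists_nsmul_eq M m hm0 z)
    (finite_nsmul_eq_zero M m hm0)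
    (fun x hx hx0 => S18.result M hℓM A hA h m hm x hx hx0)
    (DistribSMul.toAddMonoidHom (JZero M) (σ₀ ^ n))
    ((fun σ : GQ => DistribSMul.toAddMonoidHom (JZero M) σ) '' (A.inertiaSubgroupIn ℚ : Set GQ))
    (by
      rintro _ ⟨σ, hσ, rfl⟩ x
      exact reductionModL_inertia_smul M A hA hℓM h49 h σ hσ x)
    (by
      refine hfin.subset ?_
      rintro _ ⟨z, ⟨hz, -⟩, rfl⟩
      have hz' : σ₀ ^ n • z = z := hz
      show g • reductionModL A M z = reductionModL A M z
      conv_rhs => rw [← hz']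
      rw [reductionModL_smul M hℓM A hA h _ hσ])
    x₀ hy
    (by
      rintro _ ⟨σ, hσ, rfl⟩
      exact hfix σ hσ)
    (by rw [hx₀, hc])
  exact ⟨x, hx, by rw [hxc, hx₀]⟩

end Fermat.Agent.RIB
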