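import Fermat.Agent.RIB.Lift.Main
import Fermat.Agent.RIB.Ctrl.Kap.RelLift

/-!
# RIB / Lift / Ctx : [LIFT] on a context `C : S36.Ctx` (owner: helper71)

* `reductionInputsModL_rigid` : `ReductionInputsModL A M` at every rigid level `M` prime to `ℓ`.
* `liftTors` : `LiftTors C m` (the hypothesis of `RIB/Ctrl/Kap/RelLift.lean`).
-/

set_option autoImplicit false
set_option synthInstance.maxHeartbeats 400000

noncomputable section

open AlgebraicCurve ModularCurve

namespace Fermat.Agent.RIB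

open Fermat.Agent.RED hiding GQ Kb
open Fermat.Agent.FLAT (Qb GQ)

/-- the reduction map exists at every rigid level. -/
theorem reductionInputsModL_rigid {ℓ : ℕ} [Fact ℓ.Prime] (M : ℕ) [NeZero M] (hℓM : ¬ ℓ ∣ M)
    (h49 : 4 ∣ M ∨ 9 ∣ M) (A : ValuationSubring Qb) (hA : A.LiesOverPrime ℓ) :
    ReductionInputsModL A M := by
  have := charP_residueField A hA
  have := isAlgClosed_residueField A
  exact reductionInputsModL_of_genus_le M A hA hℓM
    (gen_of_rhRel M (fun _ _ _ _ _ _ _ _ _ _ _ _ h1 h2 => Fermat.Agent.RR.rhRel h1 h2) h49 _ hℓM)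

theorem rigid_of_aux_dvd {q M : ℕ} (h : aux q ∣ M) : 4 ∣ M ∨ 9 ∣ M := by
  rcases aux_eq q with h' | h' <;> rw [h'] at h
  · exact Or.inl h
  · exact Or.inr h

theorem ctx_reductionInputs (C : S36.Ctx) (h49 : 4 ∣ C.M ∨ 9 ∣ C.M) :
    ReductionInputsModL C.A C.M :=
  reductionInputsModL_rigid C.M C.hqM h49 C.A C.hA

/-- **[LIFT]** on a context. -/
theorem liftTors (C : S36.Ctx) (h49 : 4 ∣ C.M ∨ 9 ∣ C.M) {m : ℕ} (hm : m.Coprime C.q) :
    LiftTors C m := fun c hc =>
  lift_torsion C.M C.hqM C.A C.hA h49 (ctx_reductionInputs C h49) m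
    (fun h => C.hq.one_lt.ne' (Nat.dvd_one.mp (hm ▸ Nat.dvd_gcd h (dvd_refl _)))) c hc

end Fermat.Agent.RIB
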