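import Fermat.Agent.RIB.Lift.Tors

/-!
# RIB / Lift / Main : [LIFT] under the names and signatures announced by helper54 (board #2151)

Wrappers around `RIB/Lift/Tors.lean` (helper71) + `bijOn_reductionModL_torsion`, `reductionModL_inertia` (draft of helper54).
-/

set_option autoImplicit false
set_option synthInstance.maxHeartbeats 400000

noncomputable section

open AlgebraicCurve ModularCurve

namespace Fermat.Agent.RIB

open Fermat.Agent.RED hiding GQ Kb
open Fermat.Agent.FLAT (Qb GQ)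

theorem finite_nsmul_torsion (N : ℕ) [NeZero N] (m : ℕ) (hm : 0 < m) :
    {t : JZero N | m • t = 0}.Finite :=
  finite_nsmul_eq_zero N m hm

/-- inertia acts trivially after reduction (any level prime to `ℓ`). -/
theorem reductionModL_inertia {ℓ : ℕ} [Fact ℓ.Prime] (N : ℕ) [NeZero N] (hℓN : ¬ ℓ ∣ N)
    (A : ValuationSubring Qb) (hA : A.LiesOverPrime ℓ) (h : ReductionInputsModL A N)
    (σ : GQ) (hσ : σ ∈ A.inertiaSubgroupIn ℚ) (x : JZero N) :
    reductionModL A N (σ • x) = reductionModL A N x := by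
  obtain ⟨τ, hτ, rfl⟩ := hσ
  have h1 := reductionModL_smul N hℓN A hA h τ.1 τ.2 x
  have h2 : resAut A τ.1 τ.2 = (1 : RingAut (IsLocalRing.ResidueField A)) := hτ
  have h3 : coeffAut (IsLocalRing.ResidueField A) N (resAut A τ.1 τ.2) = 1 := by
    rw [h2]; exact map_one (coeffSemiC (k := IsLocalRing.ResidueField A) N)
  rw [h3, one_smul] at h1
  exact h1

/-- **[LIFT]** -/
theorem lift_torsion (N : ℕ) [NeZero N] {ℓ : ℕ} [Fact ℓ.Prime] (hℓN : ¬ ℓ ∣ N)
    (A : ValuationSubring (AlgebraicClosure ℚ)) (hA : A.LiesOverPrime ℓ)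
    (h49 : 4 ∣ N ∨ 9 ∣ N) (h : ReductionInputsModL A N) (m : ℕ) (hm : ¬ ℓ ∣ m)
    (c : JZeroC (IsLocalRing.ResidueField A) N) (hc : m • c = 0) :
    ∃ x : JZero N, m • x = 0 ∧ reductionModL A N x = c :=
  lift_torsion_rigid N A hA hℓN h49 h m hm c hc

/-- the reduction map is a bijection on the `m`-torsion, `ℓ ∤ m N`. -/
theorem bijOn_reductionModL_torsion (N : ℕ) [NeZero N] {ℓ : ℕ} [Fact ℓ.Prime] (hℓN : ¬ ℓ ∣ N)
    (A : ValuationSubring (AlgebraicClosure ℚ)) (hA : A.LiesOverPrime ℓ)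
    (h49 : 4 ∣ N ∨ 9 ∣ N) (h : ReductionInputsModL A N) (m : ℕ) (hm : ¬ ℓ ∣ m) :
    Set.BijOn (reductionModL A N) {x | m • x = 0} {c | m • c = 0} := by
  refine ⟨fun x hx => ?_, fun x hx y hy hxy => ?_, fun c hc => ?_⟩
  · show m • reductionModL A N x = 0
    rw [← map_nsmul, show m • x = 0 from hx, map_zero]
  · refine sub_eq_zero.1 (Fermat.Agent.S18.result N hℓN A hA h m hm (x - y) ?_ ?_)
    · rw [nsmul_sub, show m • x = 0 from hx, show m • y = 0 from hy, sub_zero]
    · rw [map_sub, hxy, sub_self]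
  · obtain ⟨x, hx, hxc⟩ := lift_torsion N hℓN A hA h49 h m hm c hc
    exact ⟨x, hx, hxc⟩

end Fermat.Agent.RIB
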