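import Mathlib

/-!
# RIB / Lift : the abstract counting lemma behind [LIFT] (owner: helper54)

`red : J → P` a homomorphism, `J` `m`-divisible with finite `m`-torsion on which `red` is injective; `I` a set of endomorphisms of
`J` with `red ∘ τ = red` (inertia), `s` an endomorphism (a power of a Frobenius lift).  If the image under `red` of the group
`A` of the points fixed by `s` and `I` is finite, then every `m`-torsion element of `red A` is the image of an `m`-torsion point.
-/

set_option autoImplicit false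

namespace Fermat.Agent.RIB

theorem index_range_eq_card_ker {G : Type*} [AddCommGroup G] [Finite G] (f : G →+ G) :
    f.range.index = Nat.card f.ker := by
  have h1 := f.ker.card_mul_index
  have h2 := f.range.card_mul_index
  rw [AddSubgroup.index_ker] at h1
  have h3 : 0 < Nat.card f.range := Nat.card_pos
  have : Nat.card f.range * f.range.index = Nat.card f.range * Nat.card f.ker := by
    rw [h2, ← h1, mul_comm]
  exact Nat.eq_of_mul_eq_mul_left h3 this

theorem lift_abs {J P : Type*} [AddCommGroup J] [AddCommGroup P] (red : J →+ P) (m : ℕ)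
    (hdiv : ∀ z : J, ∃ x, m • x = z)
    (hfin : {x : J | m • x = 0}.Finite)
    (hinj : ∀ x : J, m • x = 0 → red x = 0 → x = 0)
    (s : J →+ J) (I : Set (J →+ J)) (hI : ∀ τ ∈ I, ∀ x, red (τ x) = red x)
    (hG : (red '' {x | s x = x ∧ ∀ τ ∈ I, τ x = x}).Finite)
    (x₀ : J) (hs : s x₀ = x₀) (hI₀ : ∀ τ ∈ I, τ x₀ = x₀) (hx₀ : m • red x₀ = 0) :
    ∃ x, m • x = 0 ∧ red x = red x₀ := by
  classical
  -- the groups
  let A : AddSubgroup J :=
    { carrier := {x | s x = x ∧ ∀ τ ∈ I, τ x = x}
      zero_mem' := ⟨map_zero _, fun τ _ => map_zero _⟩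
      add_mem' := fun {a b} ha hb => ⟨by rw [map_add, ha.1, hb.1],
        fun τ hτ => by rw [map_add, ha.2 τ hτ, hb.2 τ hτ]⟩
      neg_mem' := fun {a} ha => ⟨by rw [map_neg, ha.1], fun τ hτ => by rw [map_neg, ha.2 τ hτ]⟩ }
  let T : AddSubgroup J := (nsmulAddMonoidHom (α := J) m).ker
  have hT : ∀ x, x ∈ T ↔ m • x = 0 := fun x => by
    simp [T, AddMonoidHom.mem_ker]
  have : Finite T := by
    have : (T : Set J) = {x : J | m • x = 0} := by ext x; exact hT x
    exact (this ▸ hfin).to_subtype
  let G : AddSubgroup P := A.map red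
  have : Finite G := by
    have : (G : Set P) = red '' {x | s x = x ∧ ∀ τ ∈ I, τ x = x} := rfl
    exact (this ▸ hG).to_subtype
  -- torsion points and division points are fixed by `I`
  have hfix : ∀ x : J, (∀ τ ∈ I, τ (m • x) = m • x) → ∀ τ ∈ I, τ x = x := by
    intro x hx τ hτ
    have h1 : m • (τ x - x) = 0 := by
      rw [smul_sub, ← map_nsmul, hx τ hτ, sub_self]
    have h2 : red (τ x - x) = 0 := by rw [map_sub, hI τ hτ, sub_self]
    exact sub_eq_zero.1 (hinj _ h1 h2)
  -- `d = s - 1` on `T`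
  let dT : T →+ T :=
    { toFun := fun t => ⟨s t - t, by
        rw [hT, smul_sub, ← map_nsmul, (hT _).1 t.2, map_zero, sub_zero]⟩
      map_zero' := by ext; simp
      map_add' := fun a b => by ext; simp; abel }
  let μ : G →+ G := nsmulAddMonoidHom m
  have c1 : μ.range.index = Nat.card μ.ker := index_range_eq_card_ker μ
  have c2 : dT.range.index = Nat.card dT.ker := index_range_eq_card_ker dT
  -- the comparison of the two quotients
  have c3 : μ.range.index ≤ dT.range.index := by
    rw [AddSubgroup.index, AddSubgroup.index]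
    -- the relation
    let R : (T ⧸ dT.range) → (G ⧸ μ.range) → Prop := fun u w =>
      ∃ (x : J) (hx : m • x ∈ A) (hd : s x - x ∈ T),
        u = QuotientAddGroup.mk ⟨s x - x, hd⟩ ∧
        w = QuotientAddGroup.mk ⟨red (m • x), AddSubgroup.mem_map_of_mem red hx⟩
    let g : (T ⧸ dT.range) → (G ⧸ μ.range) := fun u => if h : ∃ w, R u w then h.choose else 0
    refine Nat.card_le_card_of_surjective g ?_
    intro w
    obtain ⟨⟨c, a, ha, rfl⟩, rfl⟩ := QuotientAddGroup.mk_surjective w
    obtain ⟨x, hx⟩ := hdiv a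
    have hxA : m • x ∈ A := hx ▸ ha
    have hd : s x - x ∈ T := by
      rw [hT, smul_sub, ← map_nsmul, hxA.1, sub_self]
    have hR : R (QuotientAddGroup.mk ⟨s x - x, hd⟩)
        (QuotientAddGroup.mk ⟨red (m • x), AddSubgroup.mem_map_of_mem red hxA⟩) :=
      ⟨x, hxA, hd, rfl, rfl⟩
    refine ⟨QuotientAddGroup.mk ⟨s x - x, hd⟩, ?_⟩
    have hex : ∃ w, R (QuotientAddGroup.mk ⟨s x - x, hd⟩) w := ⟨_, hR⟩
    have hg : g (QuotientAddGroup.mk ⟨s x - x, hd⟩) = hex.choose := dif_pos hex
    rw [hg]
    obtain ⟨x', hx', hd', hu, hw⟩ := hex.choose_spec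
    rw [hw]
    -- `x' - x ∈ T + A`
    rw [QuotientAddGroup.eq] at hu
    obtain ⟨t, ht⟩ := hu
    have ht' : s t - t = -(s x - x) + (s x' - x') := congrArg Subtype.val ht
    have hyA : x' - x - t ∈ A := by
      refine ⟨?_, ?_⟩
      · rw [map_sub, map_sub]
        have : s x' - s x - s t - (x' - x - t) = -(s x - x) + (s x' - x') - (s t - t) := by abel
        exact sub_eq_zero.1 (by rw [this, ht', sub_self])
      · intro τ hτ
        rw [map_sub, map_sub, hfix x' hx'.2 τ hτ, hfix x hxA.2 τ hτ,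
          hfix t (fun τ _ => by rw [(hT _).1 t.2, map_zero]) τ hτ]
    rw [QuotientAddGroup.eq]
    refine ⟨⟨red (x - x' + t), AddSubgroup.mem_map_of_mem red (by
      have := A.neg_mem hyA
      have e : -(x' - x - (t : J)) = x - x' + t := by abel
      rwa [e] at this)⟩, ?_⟩
    ext
    simp only [μ, nsmulAddMonoidHom_apply, AddSubgroup.coe_nsmul, AddSubgroup.coe_add,
      AddSubgroup.coe_neg]
    subst hx
    rw [← map_nsmul, ← map_neg, ← map_add]
    congr 1
    rw [smul_add, smul_sub, (hT _).1 t.2]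
    abel
  -- the injection `ker dT → ker μ`
  have hmemA : ∀ t : dT.ker, (t : J) ∈ A := by
    intro t
    refine ⟨?_, hfix _ (fun τ _ => by rw [(hT _).1 t.1.2, map_zero])⟩
    have := t.2
    rw [AddMonoidHom.mem_ker] at this
    exact sub_eq_zero.1 (congrArg Subtype.val this)
  let ρ : dT.ker → μ.ker := fun t =>
    ⟨⟨red (t : J), AddSubgroup.mem_map_of_mem red (hmemA t)⟩, by
      rw [AddMonoidHom.mem_ker]
      ext
      simp only [μ, nsmulAddMonoidHom_apply, AddSubgroup.coe_nsmul, AddSubgroup.coe_zero]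
      rw [← map_nsmul, (hT _).1 t.1.2, map_zero]⟩
  have hρ : Function.Injective ρ := by
    intro t t' h
    have h1 : red (t : J) = red (t' : J) := congrArg (fun z : μ.ker => ((z : G) : P)) h
    have h2 : ((t : J) - (t' : J)) = 0 :=
      hinj _ (by rw [smul_sub, (hT _).1 t.1.2, (hT _).1 t'.1.2, sub_zero])
        (by rw [map_sub, h1, sub_self])
    exact Subtype.ext (Subtype.ext (sub_eq_zero.1 h2))
  have hbij : Function.Bijective ρ :=
    hρ.bijective_of_nat_card_le (by rw [← c1, ← c2]; exact c3)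
  obtain ⟨t, ht⟩ := hbij.2 ⟨⟨red x₀, AddSubgroup.mem_map_of_mem red ⟨hs, hI₀⟩⟩, by
    rw [AddMonoidHom.mem_ker]
    ext
    simpa [μ] using hx₀⟩
  exact ⟨t, (hT _).1 t.1.2, congrArg (fun z : μ.ker => ((z : G) : P)) ht⟩

end Fermat.Agent.RIB
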